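/-
helper91: **the inertia group at `p` surjects onto `Gal(ℚ(μ_{p^n})/ℚ)`**.

For every valuation subring `P` of `ℚ̄` over `p`, every `n` and every `a` prime to `p` there is `σ` in the
inertia group of `P` with `σ ζ = ζ ^ a` for all `ζ ∈ μ_{p^n}` (`exists_mem_inertia_pow`).  In particular
(`p` odd) some element of the inertia group acts non-trivially on `μ_p` (`exists_mem_inertia_ne`).

Route: `Zbar` = all algebraic integers with the action of the profinite group `G_ℚ` (`Lib/FrobeniusExists`),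
`K = ℚ(ζ)`, `H = Gal(ℚ̄/K)`.  The algebraic integers of `K` are `ℤ[ζ]` (Mathlib), hence congruent to
rational integers modulo every prime of `Zbar` over `p`: there is one prime of `Zbar ∩ K` over `p`, with
residue field `𝔽_p`.  Transitivity of `H` on primes over it moves any `τ` with `τ ζ = ζ ^ a` into the
decomposition group; surjectivity of the decomposition group of `H` onto the residue automorphisms
removes the residual action.
-/
import Mathlib
import Fermat.Agent.Lib.FrobeniusExists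
import Fermat.Prelude.Def_FLTPrelim_Ramification

set_option autoImplicit false

open scoped Pointwise
open Polynomial

noncomputable section

namespace Fermat.Agent.ES.GAL.InertiaCyclo91

open Fermat.Agent.Lib.FrobeniusExists

attribute [local instance] isGalois_Qbar isIntegral_Qbar instTopZbar

local instance instDiscreteZbar91 : DiscreteTopology Zbar := ⟨rfl⟩

attribute [local instance] continuousSMul_Zbar isInvariant_Zbar

/-! ### The prime of `Zbar` cut out by a valuation subring -/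

/-- algebraic integers lie in every valuation subring -/
theorem zbar_mem (V : ValuationSubring Qbar) (b : Zbar) : (b : Qbar) ∈ V :=
  mem_valuationSubring_of_isIntegral V b.2

/-- the inclusion `Zbar → V` -/
def toV (V : ValuationSubring Qbar) : Zbar →+* V :=
  (algebraMap Zbar Qbar).codRestrict V.toSubring (zbar_mem V)

/-- the prime ideal of `Zbar` below the maximal ideal of `V` -/
def primeOf (V : ValuationSubring Qbar) : Ideal Zbar :=
  Ideal.comap (toV V) (IsLocalRing.maximalIdeal V)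

theorem mem_primeOf (V : ValuationSubring Qbar) (b : Zbar) :
    b ∈ primeOf V ↔ (b : Qbar) ∈ V.nonunits := by
  rw [primeOf, Ideal.mem_comap, ← ValuationSubring.coe_mem_nonunits_iff]
  rfl

instance primeOf_isPrime (V : ValuationSubring Qbar) : (primeOf V).IsPrime :=
  Ideal.comap_isPrime (toV V) _

theorem natCast_mem_primeOf {V : ValuationSubring Qbar} {ℓ : ℕ} (hV : V.LiesOverPrime ℓ) :
    (ℓ : Zbar) ∈ primeOf V := by
  rw [mem_primeOf]
  have hV' : (ℓ : Qbar) ∈ V.nonunits := hV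
  simpa using hV'

/-- an element of `G_ℚ` stabilising `primeOf V` maps `V` into itself -/
theorem apply_mem_of_smul_primeOf_eq {V : ValuationSubring Qbar} {ℓ : ℕ} (hℓ : ℓ.Prime)
    (hV : V.LiesOverPrime ℓ) {τ : GQ} (hτ : τ • primeOf V = primeOf V) {x : Qbar} (hx : x ∈ V) :
    τ x ∈ V := by
  obtain ⟨b, c, hb, hc, hbV, hxb⟩ := exists_num_den V ℓ hℓ hV hx
  let b' : Zbar := ⟨b, hb⟩
  let c' : Zbar := ⟨c, hc⟩
  have hb'Q : b' ∉ primeOf V := fun h => hbV ((mem_primeOf V b').mp h)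
  have hτb : τ • b' ∉ primeOf V := by
    intro h
    apply hb'Q
    rw [← hτ] at h
    exact Ideal.smul_mem_pointwise_smul_iff.mp h
  have hτbV : τ b ∉ V.nonunits := fun h => hτb ((mem_primeOf V (τ • b')).mpr h)
  have hτb_mem : τ b ∈ V := zbar_mem V (τ • b')
  have hτc_mem : τ c ∈ V := zbar_mem V (τ • c')
  have hv1 : V.valuation (τ b) = 1 :=
    le_antisymm ((V.valuation_le_one_iff _).mpr hτb_mem) (not_lt.mp hτbV)
  have hτb0 : τ b ≠ 0 := by
    intro h0
    rw [h0, map_zero] at hv1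
    exact zero_ne_one hv1
  have hinv : (τ b)⁻¹ ∈ V := by
    rw [← V.valuation_le_one_iff, map_inv₀, hv1, inv_one]
  have hx' : τ x = τ c * (τ b)⁻¹ := by
    rw [← hxb, map_mul]
    field_simp
  rw [hx']
  exact mul_mem hτc_mem hinv

/-- the stabiliser of `primeOf V` lies in the decomposition group of `V` -/
theorem mem_decompositionSubgroup_of_smul_primeOf_eq {V : ValuationSubring Qbar} {ℓ : ℕ}
    (hℓ : ℓ.Prime) (hV : V.LiesOverPrime ℓ) {τ : GQ} (hτ : τ • primeOf V = primeOf V) :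
    τ ∈ V.decompositionSubgroup ℚ := by
  rw [MulAction.mem_stabilizer_iff]
  apply SetLike.ext
  intro x
  rw [ValuationSubring.mem_pointwise_smul_iff_inv_smul_mem]
  constructor
  · intro h
    have := apply_mem_of_smul_primeOf_eq hℓ hV hτ h
    simpa using this
  · intro h
    have hτ' : τ⁻¹ • primeOf V = primeOf V :=
      MulAction.mem_stabilizer_iff.mp
        ((MulAction.stabilizer GQ (primeOf V)).inv_mem (MulAction.mem_stabilizer_iff.mpr hτ))
    exact apply_mem_of_smul_primeOf_eq hℓ hV hτ' h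

/-- an element of the stabiliser of `primeOf V` acting trivially on `Zbar ⧸ primeOf V` lies in the
inertia group of `V` -/
theorem mem_inertiaSubgroupIn_of_forall_sub_mem {V : ValuationSubring Qbar} {ℓ : ℕ}
    (hℓ : ℓ.Prime) (hV : V.LiesOverPrime ℓ) {τ : GQ} (hτ : τ • primeOf V = primeOf V)
    (htriv : ∀ b : Zbar, τ • b - b ∈ primeOf V) :
    τ ∈ V.inertiaSubgroupIn ℚ := by
  have hdec : τ ∈ V.decompositionSubgroup ℚ :=
    mem_decompositionSubgroup_of_smul_primeOf_eq hℓ hV hτ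
  rw [ValuationSubring.inertiaSubgroupIn, Subgroup.mem_map]
  refine ⟨⟨τ, hdec⟩, ?_, rfl⟩
  rw [ValuationSubring.inertiaSubgroup, MonoidHom.mem_ker]
  ext xbar
  obtain ⟨x, rfl⟩ := IsLocalRing.residue_surjective xbar
  set g : V.decompositionSubgroup ℚ := ⟨τ, hdec⟩ with hg
  change g • (IsLocalRing.residue V x) = IsLocalRing.residue V x
  rw [← IsLocalRing.ResidueField.residue_smul]
  obtain ⟨b, c, hb, hc, hbV, hxb⟩ := exists_num_den V ℓ hℓ hV x.2
  let bV : V := ⟨b, zbar_mem V ⟨b, hb⟩⟩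
  let cV : V := ⟨c, zbar_mem V ⟨c, hc⟩⟩
  have hxbV : x * bV = cV := Subtype.ext hxb
  have hres : ∀ (y : Qbar) (hy : IsIntegral ℤ y),
      IsLocalRing.residue V (g • (⟨y, zbar_mem V ⟨y, hy⟩⟩ : V)) =
        IsLocalRing.residue V (⟨y, zbar_mem V ⟨y, hy⟩⟩ : V) := by
    intro y hy
    rw [← sub_eq_zero, ← map_sub, IsLocalRing.residue_eq_zero_iff,
      ← ValuationSubring.coe_mem_nonunits_iff]
    have := (mem_primeOf V _).mp (htriv ⟨y, hy⟩)
    exact this
  have hbne : IsLocalRing.residue V bV ≠ 0 := by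
    rw [Ne, IsLocalRing.residue_eq_zero_iff, ← ValuationSubring.coe_mem_nonunits_iff]
    exact hbV
  have h1 : IsLocalRing.residue V (g • x) * IsLocalRing.residue V bV =
      IsLocalRing.residue V x * IsLocalRing.residue V bV := by
    calc IsLocalRing.residue V (g • x) * IsLocalRing.residue V bV
        = IsLocalRing.residue V (g • x) * IsLocalRing.residue V (g • bV) := by
          rw [hres b hb]
      _ = IsLocalRing.residue V (g • cV) := by
          rw [← map_mul, ← smul_mul', hxbV]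
      _ = IsLocalRing.residue V cV := hres c hc
      _ = IsLocalRing.residue V x * IsLocalRing.residue V bV := by
          rw [← map_mul, hxbV]
  exact mul_right_cancel₀ hbne h1

/-! ### Roots of unity of `p`-power order modulo primes over `p` -/

/-- a root of unity of `p`-power order is `≡ 1` modulo every prime of `Zbar` containing `p` -/
theorem sub_one_mem_of_pow_eq_one {p : ℕ} (hp : p.Prime) (Q : Ideal Zbar) [Q.IsPrime]
    (hpQ : (p : Zbar) ∈ Q) {n : ℕ} {z : Zbar} (hz : z ^ p ^ n = 1) : z - 1 ∈ Q := by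
  have : Fact p.Prime := ⟨hp⟩
  have hp0 : ((p : ℕ) : Zbar ⧸ Q) = 0 := by
    have := Ideal.Quotient.eq_zero_iff_mem.mpr hpQ
    simpa using this
  have : CharP (Zbar ⧸ Q) p := (CharP.charP_iff_prime_eq_zero hp).mpr hp0
  rw [← Ideal.Quotient.eq_zero_iff_mem, map_sub, map_one]
  have h1 : (Ideal.Quotient.mk Q z - 1) ^ p ^ n = 0 := by
    rw [sub_pow_char_pow, one_pow, ← map_pow, hz, map_one, sub_self]
  exact (pow_eq_zero_iff (pow_ne_zero _ hp.ne_zero)).mp h1

/-- **Algebraic integers of `ℚ(ζ_{p^n})` are congruent to rational integers modulo every prime of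
`Zbar` over `p`** (the ring of integers is `ℤ[ζ]` and `ζ ≡ 1`). -/
theorem exists_int_sub_mem_of_mem_adjoin {p : ℕ} (hp : p.Prime) {n : ℕ} {ζ : Qbar}
    (hζ : IsPrimitiveRoot ζ (p ^ n)) (x : Zbar)
    (hx : (x : Qbar) ∈ IntermediateField.adjoin ℚ {ζ}) :
    ∃ m : ℤ, ∀ (Q : Ideal Zbar) [Q.IsPrime], (p : Zbar) ∈ Q → x - (m : Zbar) ∈ Q := by
  have : Fact p.Prime := ⟨hp⟩
  have : NeZero (p ^ n) := ⟨pow_ne_zero _ hp.ne_zero⟩
  have : IsCyclotomicExtension {p ^ n} ℚ (IntermediateField.adjoin ℚ {ζ}) :=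
    hζ.intermediateField_adjoin_isCyclotomicExtension ℚ
  let ζK : IntermediateField.adjoin ℚ {ζ} := IntermediateField.AdjoinSimple.gen ℚ ζ
  have hζK : IsPrimitiveRoot ζK (p ^ n) := by
    apply IsPrimitiveRoot.of_map_of_injective (f := algebraMap (IntermediateField.adjoin ℚ {ζ}) Qbar)
      _ (algebraMap (IntermediateField.adjoin ℚ {ζ}) Qbar).injective
    exact hζ
  let xK : IntermediateField.adjoin ℚ {ζ} := ⟨x, hx⟩
  have hxK : IsIntegral ℤ xK := by
    have h1 : IsIntegral ℤ (algebraMap (IntermediateField.adjoin ℚ {ζ}) Qbar xK) := x.2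
    exact (isIntegral_algebraMap_iff
      (algebraMap (IntermediateField.adjoin ℚ {ζ}) Qbar).injective).mp h1
  obtain ⟨y, hy⟩ :=
    (IsCyclotomicExtension.Rat.isIntegralClosure_adjoin_singleton_of_prime_pow hζK).isIntegral_iff.1
      hxK
  have hy' : (y : IntermediateField.adjoin ℚ {ζ}) ∈ Algebra.adjoin ℤ {ζK} := y.2
  rw [Algebra.adjoin_singleton_eq_range_aeval] at hy'
  obtain ⟨f, hf⟩ := hy'
  -- `x = f(ζ)` in `ℚ̄`
  have hxf : (x : Qbar) = aeval ζ f := by
    have h1 : (x : Qbar) = algebraMap (IntermediateField.adjoin ℚ {ζ}) Qbar xK := rfl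
    have h2 : xK = aeval ζK f := by
      rw [← hy]
      exact hf.symm
    rw [h1, h2, ← Polynomial.aeval_algebraMap_apply]
    rfl
  have hζint : IsIntegral ℤ ζ := hζ.isIntegral (Nat.pos_of_ne_zero (pow_ne_zero _ hp.ne_zero))
  let ζZ : Zbar := ⟨ζ, hζint⟩
  have hxZ : x = aeval ζZ f := by
    apply Subtype.ext
    rw [hxf]
    exact Subalgebra.aeval_coe (integralClosure ℤ Qbar) ζZ f
  refine ⟨f.eval 1, fun Q _ hpQ => ?_⟩
  have hζZ : ζZ ^ p ^ n = 1 := by
    apply Subtype.ext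
    simpa using hζ.pow_eq_one
  have hmem : ζZ - 1 ∈ Q := sub_one_mem_of_pow_eq_one hp Q hpQ hζZ
  have hdvd : ζZ - 1 ∣ x - ((f.eval 1 : ℤ) : Zbar) := by
    have h := Polynomial.sub_dvd_eval_sub ζZ 1 (f.map (algebraMap ℤ Zbar))
    rw [Polynomial.eval_one_map, eq_intCast] at h
    rw [hxZ, Polynomial.aeval_def, ← Polynomial.eval_map]
    exact h
  exact Ideal.mem_of_dvd Q hdvd hmem

/-! ### The group `H = Gal(ℚ̄/ℚ(ζ))` acting on `Zbar` -/

/-- `H = Gal(ℚ̄/ℚ(ζ))` as a subgroup of `G_ℚ` -/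
abbrev fixH (ζ : Qbar) : Subgroup GQ := (IntermediateField.adjoin ℚ {ζ}).fixingSubgroup

theorem isClosed_fixH (ζ : Qbar) : IsClosed (fixH ζ : Set GQ) := by
  have hζint : IsIntegral ℚ ζ := Algebra.IsIntegral.isIntegral ζ
  have : FiniteDimensional ℚ (IntermediateField.adjoin ℚ {ζ}) :=
    IntermediateField.adjoin.finiteDimensional hζint
  exact IntermediateField.fixingSubgroup_isClosed _

instance compactSpace_fixH (ζ : Qbar) : CompactSpace (fixH ζ) :=
  isCompact_iff_compactSpace.mp (isClosed_fixH ζ).isCompact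

/-- the invariants of `H` in `Zbar` (the algebraic integers of `ℚ(ζ)`) -/
abbrev invA (ζ : Qbar) : Subalgebra ℤ Zbar := FixedPoints.subalgebra ℤ Zbar (fixH ζ)

theorem smul_coe_invA (ζ : Qbar) (a : invA ζ) (h : fixH ζ) : h • (a : Zbar) = a := a.2 h

instance smulCommClass_invA (ζ : Qbar) : SMulCommClass (fixH ζ) (invA ζ) Zbar where
  smul_comm h a b := by
    change h • ((a : Zbar) * b) = (a : Zbar) * h • b
    rw [smul_mul', smul_coe_invA]

instance isInvariant_invA (ζ : Qbar) : Algebra.IsInvariant (invA ζ) Zbar (fixH ζ) :=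
  ⟨fun b hb => ⟨⟨b, hb⟩, rfl⟩⟩

theorem coe_mem_adjoin_of_invA (ζ : Qbar) (a : invA ζ) :
    (((a : Zbar) : Qbar)) ∈ IntermediateField.adjoin ℚ {ζ} := by
  rw [← InfiniteGalois.fixedField_fixingSubgroup (IntermediateField.adjoin ℚ {ζ}),
    IntermediateField.mem_fixedField_iff]
  intro h hh
  have h1 := smul_coe_invA ζ a ⟨h, hh⟩
  exact congrArg Subtype.val h1

/-- a rational integer lies in a prime of `Zbar` containing `p` iff it is divisible by `p` -/
theorem intCast_mem_iff {p : ℕ} (hp : p.Prime) (Q : Ideal Zbar) [hQ : Q.IsPrime]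
    (hpQ : (p : Zbar) ∈ Q) (m : ℤ) : (m : Zbar) ∈ Q ↔ (p : ℤ) ∣ m := by
  constructor
  · intro hm
    by_contra hndvd
    have hcop : IsCoprime (p : ℤ) m :=
      (Nat.prime_iff_prime_int.mp hp).irreducible.coprime_iff_not_dvd.mpr hndvd
    obtain ⟨u, v, huv⟩ := hcop
    have h1 : ((u * p + v * m : ℤ) : Zbar) ∈ Q := by
      push_cast
      exact Q.add_mem (Q.mul_mem_left _ hpQ) (Q.mul_mem_left _ hm)
    rw [huv, Int.cast_one] at h1
    exact hQ.ne_top ((Ideal.eq_top_iff_one Q).mpr h1)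
  · rintro ⟨k, rfl⟩
    push_cast
    exact Q.mul_mem_right _ hpQ

/-- **one prime of `Zbar ∩ ℚ(ζ)` over `p`** -/
theorem under_invA_eq {p : ℕ} (hp : p.Prime) {n : ℕ} {ζ : Qbar} (hζ : IsPrimitiveRoot ζ (p ^ n))
    (Q₁ Q₂ : Ideal Zbar) [Q₁.IsPrime] [Q₂.IsPrime] (h₁ : (p : Zbar) ∈ Q₁) (h₂ : (p : Zbar) ∈ Q₂) :
    Q₁.under (invA ζ) = Q₂.under (invA ζ) := by
  ext a
  obtain ⟨m, hm⟩ := exists_int_sub_mem_of_mem_adjoin hp hζ (a : Zbar) (coe_mem_adjoin_of_invA ζ a)
  have key : ∀ (Q : Ideal Zbar) [Q.IsPrime], (p : Zbar) ∈ Q → (a ∈ Q.under (invA ζ) ↔ (p : ℤ) ∣ m) := by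
    intro Q _ hpQ
    rw [Ideal.mem_comap, ← intCast_mem_iff hp Q hpQ m]
    change (a : Zbar) ∈ Q ↔ _
    constructor
    · intro ha
      have := Q.sub_mem ha (hm Q hpQ)
      simpa using this
    · intro hmQ
      have := Q.add_mem (hm Q hpQ) hmQ
      simpa using this
  rw [key Q₁ h₁, key Q₂ h₂]

/-! ### The main theorem -/

/-- there is an element of `G_ℚ` raising a given primitive root of unity to a power prime to its
order -/
theorem exists_galois_pow {k : ℕ} (hk : 0 < k) {ζ : Qbar} (hζ : IsPrimitiveRoot ζ k) {a : ℕ}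
    (ha : a.Coprime k) : ∃ τ : GQ, τ ζ = ζ ^ a := by
  have : NeZero ((k : ℕ) : ℚ) := ⟨by exact_mod_cast hk.ne'⟩
  have hζa : IsPrimitiveRoot (ζ ^ a) k := hζ.pow_of_coprime a ha
  have hirr : Irreducible (cyclotomic k ℚ) := cyclotomic.irreducible_rat hk
  have h1 : minpoly ℚ ζ = minpoly ℚ (ζ ^ a) := by
    rw [← hζ.minpoly_eq_cyclotomic_of_irreducible hirr,
      ← hζa.minpoly_eq_cyclotomic_of_irreducible hirr]
  have h2 : aeval (ζ ^ a) (minpoly ℚ ζ) = 0 := by
    rw [h1]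
    exact minpoly.aeval ℚ (ζ ^ a)
  have hy : IsAlgebraic ℚ ζ := (Algebra.IsIntegral.isIntegral (R := ℚ) ζ).isAlgebraic
  exact minpoly.exists_algEquiv_of_root' hy h2

set_option synthInstance.maxHeartbeats 400000 in
set_option maxHeartbeats 1000000 in
/-- **The inertia group at `p` surjects onto `Gal(ℚ(μ_{p^n})/ℚ)`.** -/
theorem exists_mem_inertia_pow {p : ℕ} (hp : p.Prime) (P : ValuationSubring Qbar)
    (hP : P.LiesOverPrime p) (n a : ℕ) (ha : a.Coprime p) :
    ∃ σ ∈ P.inertiaSubgroupIn ℚ, ∀ η : Qbar, η ^ p ^ n = 1 → σ η = η ^ a := by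
  have hpn : 0 < p ^ n := pow_pos hp.pos n
  have : NeZero (p ^ n) := ⟨hpn.ne'⟩
  obtain ⟨ζ, hζ⟩ : ∃ ζ : Qbar, IsPrimitiveRoot ζ (p ^ n) :=
    HasEnoughRootsOfUnity.exists_primitiveRoot Qbar (p ^ n)
  obtain ⟨τ, hτ⟩ := exists_galois_pow hpn hζ (Nat.Coprime.pow_right n ha)
  set Q : Ideal Zbar := primeOf P with hQ
  have hpQ : (p : Zbar) ∈ Q := natCast_mem_primeOf hP
  -- `τ • Q` is again a prime over `p`
  have hpτQ : (p : Zbar) ∈ τ • Q := by
    have h1 : τ • (p : Zbar) ∈ τ • Q := Ideal.smul_mem_pointwise_smul_iff.mpr hpQ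
    have h2 : τ • (p : Zbar) = (p : Zbar) := by
      apply Subtype.ext
      change τ ((p : Zbar) : Qbar) = ((p : Zbar) : Qbar)
      simp
    rwa [h2] at h1
  -- move `τ` into the stabiliser of `Q` by an element of `H`
  obtain ⟨h, hh⟩ := Algebra.IsInvariant.exists_smul_of_under_eq_of_profinite (A := invA ζ)
    (G := fixH ζ) (τ • Q) Q (under_invA_eq hp hζ (τ • Q) Q hpτQ hpQ)
  set σ₁ : GQ := (h : GQ) * τ with hσ₁
  have hσ₁Q : σ₁ • Q = Q := by
    rw [hσ₁, mul_smul]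
    exact hh.symm
  -- the residual automorphism of `σ₁`
  have hfixζ : ∀ g : fixH ζ, ∀ j : ℕ, (g : GQ) (ζ ^ j) = ζ ^ j := by
    intro g j
    have hmem : ζ ^ j ∈ IntermediateField.adjoin ℚ {ζ} :=
      pow_mem (IntermediateField.mem_adjoin_simple_self ℚ ζ) j
    exact (IntermediateField.mem_fixingSubgroup_iff _ _).mp g.2 _ hmem
  have hσ₁ζ : σ₁ ζ = ζ ^ a := by
    rw [hσ₁, AlgEquiv.mul_apply, hτ]
    exact hfixζ h a
  let α₀ : (Zbar ⧸ Q) ≃ₐ[ℤ ⧸ Q.under ℤ] (Zbar ⧸ Q) :=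
    Ideal.Quotient.stabilizerHom Q (Q.under ℤ) GQ ⟨σ₁, hσ₁Q⟩
  have hα₀ : ∀ b : Zbar, α₀ (Ideal.Quotient.mk Q b) = Ideal.Quotient.mk Q (σ₁ • b) := fun b => rfl
  let α : (Zbar ⧸ Q) ≃ₐ[invA ζ ⧸ Q.under (invA ζ)] (Zbar ⧸ Q) :=
    AlgEquiv.ofRingEquiv (f := α₀.toRingEquiv) (by
      intro r
      obtain ⟨r, rfl⟩ := Ideal.Quotient.mk_surjective r
      rw [Ideal.Quotient.algebraMap_mk_of_liesOver]
      obtain ⟨m, hm⟩ := exists_int_sub_mem_of_mem_adjoin hp hζ (r : Zbar)
        (coe_mem_adjoin_of_invA ζ r)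
      have h1 : Ideal.Quotient.mk Q (algebraMap (invA ζ) Zbar r) = ((m : ℤ) : Zbar ⧸ Q) := by
        rw [← map_intCast (Ideal.Quotient.mk Q) m]
        exact Ideal.Quotient.eq.mpr (hm Q hpQ)
      rw [h1]
      exact map_intCast α₀.toRingEquiv m)
  have hα : ∀ x, α x = α₀ x := fun x => rfl
  obtain ⟨h', hh'⟩ := Ideal.Quotient.stabilizerHom_surjective_of_profinite (G := fixH ζ)
    (Q.under (invA ζ)) Q α
  have hh'Q : ((h' : fixH ζ) : GQ) • Q = Q := h'.2
  have hcong : ∀ b : Zbar, ((h' : fixH ζ) : GQ) • b - σ₁ • b ∈ Q := by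
    intro b
    have h1 := DFunLike.congr_fun hh' (Ideal.Quotient.mk Q b)
    rw [Ideal.Quotient.stabilizerHom_apply, hα, hα₀] at h1
    exact Ideal.Quotient.eq.mp h1
  set g' : GQ := ((h' : fixH ζ) : GQ) with hg'
  refine ⟨g'⁻¹ * σ₁, ?_, ?_⟩
  · have hg'inv : g'⁻¹ • Q = Q :=
      MulAction.mem_stabilizer_iff.mp
        ((MulAction.stabilizer GQ Q).inv_mem (MulAction.mem_stabilizer_iff.mpr hh'Q))
    have hstab : (g'⁻¹ * σ₁) • Q = Q := by
      rw [mul_smul, hσ₁Q, hg'inv]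
    refine mem_inertiaSubgroupIn_of_forall_sub_mem hp hP hstab fun b => ?_
    have h1 : (g'⁻¹ * σ₁) • b - b = g'⁻¹ • (σ₁ • b - g' • b) := by
      rw [mul_smul, smul_sub, inv_smul_smul]
    rw [h1]
    have h2 : σ₁ • b - g' • b ∈ Q := by
      have := Q.neg_mem (hcong b)
      rwa [neg_sub] at this
    have h3 : g'⁻¹ • (σ₁ • b - g' • b) ∈ g'⁻¹ • Q := Ideal.smul_mem_pointwise_smul_iff.mpr h2
    rwa [hg'inv] at h3
  · intro η hη
    obtain ⟨j, -, rfl⟩ := hζ.eq_pow_of_pow_eq_one hη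
    have hg'ζ : ∀ j : ℕ, g'⁻¹ (ζ ^ j) = ζ ^ j := by
      intro j
      have := hfixζ (h' : fixH ζ)⁻¹ j
      simpa using this
    rw [AlgEquiv.mul_apply, map_pow, hσ₁ζ, ← pow_mul, hg'ζ, ← pow_mul, mul_comm]

/-- for odd `p` some element of the inertia group at `p` squares all `p`-power roots of unity of a
given level; in particular it moves every primitive `p`-th root of unity. -/
theorem exists_mem_inertia_sq {p : ℕ} (hp : p.Prime) (hp2 : p ≠ 2) (P : ValuationSubring Qbar)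
    (hP : P.LiesOverPrime p) (n : ℕ) :
    ∃ σ ∈ P.inertiaSubgroupIn ℚ, ∀ η : Qbar, η ^ p ^ n = 1 → σ η = η ^ 2 :=
  exists_mem_inertia_pow hp P hP n 2
    ((Nat.coprime_primes Nat.prime_two hp).mpr (Ne.symm hp2))

/-- for odd `p` the inertia group at `p` acts non-trivially on `μ_p`. -/
theorem exists_mem_inertia_ne {p : ℕ} (hp : p.Prime) (hp2 : p ≠ 2) (P : ValuationSubring Qbar)
    (hP : P.LiesOverPrime p) :
    ∃ σ ∈ P.inertiaSubgroupIn ℚ, ∀ ζ : Qbar, IsPrimitiveRoot ζ p → σ ζ ≠ ζ := by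
  obtain ⟨σ, hσ, h⟩ := exists_mem_inertia_sq hp hp2 P hP 1
  refine ⟨σ, hσ, fun ζ hζ heq => ?_⟩
  have h1 : σ ζ = ζ ^ 2 := h ζ (by rw [pow_one]; exact hζ.pow_eq_one)
  rw [heq] at h1
  have hζ0 : ζ ≠ 0 := hζ.ne_zero hp.ne_zero
  have h2 : ζ = 1 := by
    have : ζ * 1 = ζ * ζ := by rw [mul_one, ← sq]; exact h1
    exact (mul_left_cancel₀ hζ0 this).symm
  exact hζ.ne_one hp.one_lt h2

end Fermat.Agent.ES.GAL.InertiaCyclo91
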