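/-
helper91: **the `p`-adic cyclotomic character on the inertia group at `p`** (companion of
`GAL/InertiaCyclo91`, stated with `ES/J/CycloChar8.cyclo`).

* `exists_mem_inertia_toZModPow` : for `a` prime to `p` some `σ` in the inertia group of `P | p` has
  `ε(σ) ≡ a mod p ^ n`;
* `exists_mem_inertia_isUnit_cyclo_sub_one` : for odd `p` some `σ` in the inertia group of `P | p` has
  `ε(σ) - 1 ∈ ℤ_pˣ` (the inertia group at `p` acts non-trivially on `μ_p`);
* `exists_mem_inertia_isUnit_cycloO_sub_one` : the same with values in a complete local ring `𝒪`, `p ∈ 𝔪`.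
-/
import Mathlib
import Fermat.Agent.ES.GAL.InertiaCyclo91
import Fermat.Agent.ES.J.CycloChar8

set_option autoImplicit false

noncomputable section

namespace Fermat.Agent.ES.GAL.InertiaCycloChar91

open Fermat.Agent.ES.J.CycloChar8 Fermat.Agent.ES.GAL.InertiaCyclo91

local notation "Qb" => AlgebraicClosure ℚ

variable (p : ℕ) [hp : Fact p.Prime]

/-- the inertia group at `p` hits every class prime to `p` of the cyclotomic character mod `p ^ n`. -/
theorem exists_mem_inertia_toZModPow (P : ValuationSubring Qb) (hP : P.LiesOverPrime p) (n a : ℕ)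
    (ha : a.Coprime p) :
    ∃ σ ∈ P.inertiaSubgroupIn ℚ, (cyclo p σ : ℤ_[p]).toZModPow n = (a : ZMod (p ^ n)) := by
  obtain ⟨σ, hσ, h⟩ := exists_mem_inertia_pow hp.out P hP n a ha
  obtain ⟨ζ, hζ⟩ := exists_primitiveRoot p n
  exact ⟨σ, hσ, toZModPow_cyclo p hζ (h ζ hζ.pow_eq_one)⟩

/-- for odd `p` some element of the inertia group at `p` has `ε(σ) - 1` a unit of `ℤ_p`. -/
theorem exists_mem_inertia_isUnit_cyclo_sub_one (hp2 : p ≠ 2) (P : ValuationSubring Qb)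
    (hP : P.LiesOverPrime p) :
    ∃ σ ∈ P.inertiaSubgroupIn ℚ, IsUnit ((cyclo p σ : ℤ_[p]) - 1) := by
  obtain ⟨σ, hσ, h⟩ := exists_mem_inertia_toZModPow p P hP 1 2
    ((Nat.coprime_primes Nat.prime_two hp.out).mpr (Ne.symm hp2))
  refine ⟨σ, hσ, ?_⟩
  by_contra hnu
  have hmem : (cyclo p σ : ℤ_[p]) - 1 ∈ IsLocalRing.maximalIdeal ℤ_[p] :=
    (IsLocalRing.mem_maximalIdeal _).mpr hnu
  rw [PadicInt.maximalIdeal_eq_span_p] at hmem
  have h0 : PadicInt.toZModPow 1 ((cyclo p σ : ℤ_[p]) - 1) = 0 := by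
    rw [← RingHom.mem_ker, PadicInt.ker_toZModPow, pow_one]
    exact hmem
  rw [map_sub, map_one, h] at h0
  have h1 : ((1 : ℕ) : ZMod (p ^ 1)) = 0 := by
    have : ((2 : ℕ) : ZMod (p ^ 1)) - 1 = ((1 : ℕ) : ZMod (p ^ 1)) := by
      push_cast
      ring
    rw [← this]
    exact h0
  rw [ZMod.natCast_eq_zero_iff, pow_one] at h1
  exact hp.out.one_lt.ne' (Nat.dvd_one.mp h1)

section Coeff

variable {𝒪 : Type*} [CommRing 𝒪] [IsLocalRing 𝒪] [IsAdicComplete (IsLocalRing.maximalIdeal 𝒪) 𝒪]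
  (hp𝒪 : (p : 𝒪) ∈ IsLocalRing.maximalIdeal 𝒪)

/-- for odd `p` some element of the inertia group at `p` has `ε(σ) - 1` a unit of `𝒪`. -/
theorem exists_mem_inertia_isUnit_cycloO_sub_one (hp2 : p ≠ 2) (P : ValuationSubring Qb)
    (hP : P.LiesOverPrime p) :
    ∃ σ ∈ P.inertiaSubgroupIn ℚ, IsUnit ((cycloO p hp𝒪 σ : 𝒪) - 1) := by
  obtain ⟨σ, hσ, hu⟩ := exists_mem_inertia_isUnit_cyclo_sub_one p hp2 P hP
  refine ⟨σ, hσ, ?_⟩
  have e : (cycloO p hp𝒪 σ : 𝒪) - 1 =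
      Fermat.Agent.ES.J.PadicAlg8.padicToLocal p hp𝒪 ((cyclo p σ : ℤ_[p]) - 1) := by
    rw [coe_cycloO, map_sub, map_one]
  rw [e]
  exact hu.map _

end Coeff

end Fermat.Agent.ES.GAL.InertiaCycloChar91
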